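import Fermat.Agent.S27.Defs

/-!
# S27 [V]: API for `val`, `evalOP`, `cls`, `sumPts`
-/

set_option autoImplicit false

namespace Fermat.Agent.S27

open AlgebraicCurve Fermat.Agent.S24.FF

variable {K F : Type*} [Field K] [Field F] [Algebra K F]

/-! ## `ord` -/

theorem ord_add_nonneg (v : Place K F) {f g : F} (hf : 0 ≤ v.ord f) (hg : 0 ≤ v.ord g) :
    0 ≤ v.ord (f + g) := by
  rcases eq_or_ne (f + g) 0 with h | h
  · rw [h, Place.ord_zero]
  · exact le_trans (le_min hf hg) (min_ord_le_ord_add v h)

theorem ord_neg_nonneg (v : Place K F) {f : F} (hf : 0 ≤ v.ord f) : 0 ≤ v.ord (-f) := by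
  rwa [ord_neg]

theorem ord_sub_nonneg (v : Place K F) {f g : F} (hf : 0 ≤ v.ord f) (hg : 0 ≤ v.ord g) :
    0 ≤ v.ord (f - g) := by
  rw [sub_eq_add_neg]
  exact ord_add_nonneg v hf (ord_neg_nonneg v hg)

theorem ord_mul_nonneg (v : Place K F) {f g : F} (hf : 0 ≤ v.ord f) (hg : 0 ≤ v.ord g) :
    0 ≤ v.ord (f * g) := by
  rcases eq_or_ne f 0 with rfl | hf0
  · simp
  rcases eq_or_ne g 0 with rfl | hg0
  · simp
  rw [v.ord_mul hf0 hg0]
  omega

theorem ord_pow_nonneg (v : Place K F) {f : F} (hf : 0 ≤ v.ord f) (n : ℕ) :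
    0 ≤ v.ord (f ^ n) := by
  rw [ord_pow]
  positivity

theorem ord_algebraMap_nonneg (v : Place K F) (c : K) : 0 ≤ v.ord (algebraMap K F c) :=
  (ord_algebraMap v c).ge

theorem ord_sum_nonneg (v : Place K F) {ι : Type*} (s : Finset ι) (f : ι → F)
    (h : ∀ i ∈ s, 0 ≤ v.ord (f i)) : 0 ≤ v.ord (∑ i ∈ s, f i) := by
  classical
  induction s using Finset.induction_on with
  | empty => simp
  | insert a s ha ih =>
    rw [Finset.sum_insert ha]
    exact ord_add_nonneg v (h a (Finset.mem_insert_self a s))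
      (ih fun i hi => h i (Finset.mem_insert_of_mem hi))

theorem ord_prod_nonneg (v : Place K F) {ι : Type*} (s : Finset ι) (f : ι → F)
    (h : ∀ i ∈ s, 0 ≤ v.ord (f i)) : 0 ≤ v.ord (∏ i ∈ s, f i) := by
  classical
  induction s using Finset.induction_on with
  | empty => simp
  | insert a s ha ih =>
    rw [Finset.prod_insert ha]
    exact ord_mul_nonneg v (h a (Finset.mem_insert_self a s))
      (ih fun i hi => h i (Finset.mem_insert_of_mem hi))

/-- "`f` vanishes at `v`": `f = 0` or `ord_v f > 0`. Closed under addition. -/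
theorem vanish_add (v : Place K F) {f g : F} (hf : f = 0 ∨ 0 < v.ord f)
    (hg : g = 0 ∨ 0 < v.ord g) : f + g = 0 ∨ 0 < v.ord (f + g) := by
  rcases eq_or_ne (f + g) 0 with h | h
  · exact Or.inl h
  right
  rcases hf with rfl | hf
  · rcases hg with rfl | hg
    · simp at h
    · simpa using hg
  rcases hg with rfl | hg
  · simpa using hf
  exact lt_of_lt_of_le (lt_min hf hg) (min_ord_le_ord_add v h)

theorem vanish_neg (v : Place K F) {f : F} (hf : f = 0 ∨ 0 < v.ord f) :
    -f = 0 ∨ 0 < v.ord (-f) := by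
  rcases hf with rfl | hf
  · simp
  · right; rwa [ord_neg]

theorem vanish_mul (v : Place K F) {f g : F} (hf : f = 0 ∨ 0 < v.ord f) (hg : 0 ≤ v.ord g) :
    f * g = 0 ∨ 0 < v.ord (f * g) := by
  rcases hf with rfl | hf
  · simp
  rcases eq_or_ne g 0 with rfl | hg0
  · simp
  right
  rw [v.ord_mul (ne_zero_of_ord_ne_zero v hf.ne') hg0]
  omega

/-! ## `val` -/

theorem val_spec [IsAlgClosed K] [IsFF1 K F] (v : Place K F) {f : F} (hf : 0 ≤ v.ord f) :
    f = algebraMap K F (val v f) ∨ 0 < v.ord (f - algebraMap K F (val v f)) := by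
  have h := exists_ord_sub_pos v hf
  unfold val
  rw [dif_pos h]
  exact h.choose_spec

theorem eq_of_congr (v : Place K F) {f : F} {c c' : K}
    (h : f = algebraMap K F c ∨ 0 < v.ord (f - algebraMap K F c))
    (h' : f = algebraMap K F c' ∨ 0 < v.ord (f - algebraMap K F c')) : c = c' := by
  rcases h with h | h
  · rcases h' with h' | h'
    · exact (algebraMap K F).injective (h.symm.trans h')
    · rw [h, ← map_sub, ord_algebraMap] at h'
      omega
  · rcases h' with h' | h'
    · rw [h', ← map_sub, ord_algebraMap] at h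
      omega
    · exact eq_of_ord_sub_pos v h h'

theorem val_eq_of (v : Place K F) {f : F} {c : K}
    (h : f = algebraMap K F c ∨ 0 < v.ord (f - algebraMap K F c)) : val v f = c := by
  have hex : ∃ c : K, f = algebraMap K F c ∨ 0 < v.ord (f - algebraMap K F c) := ⟨c, h⟩
  unfold val
  rw [dif_pos hex]
  exact eq_of_congr v hex.choose_spec h

/-- variant of `val_eq_of` with the condition written as "`f - c` vanishes at `v`". -/
theorem val_eq_of' (v : Place K F) {f : F} {c : K}
    (h : f - algebraMap K F c = 0 ∨ 0 < v.ord (f - algebraMap K F c)) : val v f = c :=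
  val_eq_of v (h.imp_left sub_eq_zero.mp)

theorem val_spec' [IsAlgClosed K] [IsFF1 K F] (v : Place K F) {f : F} (hf : 0 ≤ v.ord f) :
    f - algebraMap K F (val v f) = 0 ∨ 0 < v.ord (f - algebraMap K F (val v f)) :=
  (val_spec v hf).imp_left sub_eq_zero.mpr

@[simp]
theorem val_algebraMap (v : Place K F) (c : K) : val v (algebraMap K F c) = c :=
  val_eq_of v (Or.inl rfl)

@[simp]
theorem val_zero (v : Place K F) : val v (0 : F) = 0 := by
  simpa using val_algebraMap (F := F) v (0 : K)

@[simp]
theorem val_one (v : Place K F) : val v (1 : F) = 1 := by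
  simpa using val_algebraMap (F := F) v (1 : K)

theorem val_add [IsAlgClosed K] [IsFF1 K F] (v : Place K F) {f g : F} (hf : 0 ≤ v.ord f)
    (hg : 0 ≤ v.ord g) : val v (f + g) = val v f + val v g := by
  apply val_eq_of'
  have h := vanish_add v (val_spec' v hf) (val_spec' v hg)
  have e : f + g - algebraMap K F (val v f + val v g)
      = (f - algebraMap K F (val v f)) + (g - algebraMap K F (val v g)) := by
    rw [map_add]; ring
  rwa [e]

theorem val_neg [IsAlgClosed K] [IsFF1 K F] (v : Place K F) {f : F} (hf : 0 ≤ v.ord f) :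
    val v (-f) = - val v f := by
  apply val_eq_of'
  have h := vanish_neg v (val_spec' v hf)
  have e : -f - algebraMap K F (-val v f) = -(f - algebraMap K F (val v f)) := by
    rw [map_neg]; ring
  rwa [e]

theorem val_sub [IsAlgClosed K] [IsFF1 K F] (v : Place K F) {f g : F} (hf : 0 ≤ v.ord f)
    (hg : 0 ≤ v.ord g) : val v (f - g) = val v f - val v g := by
  rw [sub_eq_add_neg, val_add v hf (ord_neg_nonneg v hg), val_neg v hg, sub_eq_add_neg]

theorem val_mul [IsAlgClosed K] [IsFF1 K F] (v : Place K F) {f g : F} (hf : 0 ≤ v.ord f)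
    (hg : 0 ≤ v.ord g) : val v (f * g) = val v f * val v g := by
  apply val_eq_of'
  have h1 := vanish_mul v (val_spec' v hf) hg
  have h2 := vanish_mul v (val_spec' v hg) (ord_algebraMap_nonneg v (val v f))
  have h := vanish_add v h1 h2
  have e : f * g - algebraMap K F (val v f * val v g)
      = (f - algebraMap K F (val v f)) * g
        + (g - algebraMap K F (val v g)) * algebraMap K F (val v f) := by
    rw [map_mul]; ring
  rwa [e]

theorem val_pow [IsAlgClosed K] [IsFF1 K F] (v : Place K F) {f : F} (hf : 0 ≤ v.ord f) (n : ℕ) :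
    val v (f ^ n) = val v f ^ n := by
  induction n with
  | zero => simp
  | succ n ih => rw [pow_succ, val_mul v (ord_pow_nonneg v hf n) hf, ih, pow_succ]

theorem val_smul [IsAlgClosed K] [IsFF1 K F] (v : Place K F) (c : K) {f : F}
    (hf : 0 ≤ v.ord f) : val v (c • f) = c * val v f := by
  rw [Algebra.smul_def, val_mul v (ord_algebraMap_nonneg v c) hf, val_algebraMap]

theorem val_sum [IsAlgClosed K] [IsFF1 K F] (v : Place K F) {ι : Type*} (s : Finset ι)
    (f : ι → F) (h : ∀ i ∈ s, 0 ≤ v.ord (f i)) :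
    val v (∑ i ∈ s, f i) = ∑ i ∈ s, val v (f i) := by
  classical
  induction s using Finset.induction_on with
  | empty => simp
  | insert a s ha ih =>
    rw [Finset.sum_insert ha, Finset.sum_insert ha,
      val_add v (h a (Finset.mem_insert_self a s))
        (ord_sum_nonneg v s f fun i hi => h i (Finset.mem_insert_of_mem hi)),
      ih fun i hi => h i (Finset.mem_insert_of_mem hi)]

theorem val_prod [IsAlgClosed K] [IsFF1 K F] (v : Place K F) {ι : Type*} (s : Finset ι)
    (f : ι → F) (h : ∀ i ∈ s, 0 ≤ v.ord (f i)) :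
    val v (∏ i ∈ s, f i) = ∏ i ∈ s, val v (f i) := by
  classical
  induction s using Finset.induction_on with
  | empty => simp
  | insert a s ha ih =>
    rw [Finset.prod_insert ha, Finset.prod_insert ha,
      val_mul v (h a (Finset.mem_insert_self a s))
        (ord_prod_nonneg v s f fun i hi => h i (Finset.mem_insert_of_mem hi)),
      ih fun i hi => h i (Finset.mem_insert_of_mem hi)]

theorem val_eq_zero_iff [IsAlgClosed K] [IsFF1 K F] (v : Place K F) {f : F} (hf : 0 ≤ v.ord f) :
    val v f = 0 ↔ f = 0 ∨ 0 < v.ord f := by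
  constructor
  · intro h
    have := val_spec v hf
    rwa [h, map_zero, sub_zero] at this
  · intro h
    apply val_eq_of
    rwa [map_zero, sub_zero]

theorem val_eq_zero_of_ord_pos (v : Place K F) {f : F} (hf : 0 < v.ord f) : val v f = 0 := by
  apply val_eq_of
  right
  rwa [map_zero, sub_zero]

theorem val_ne_zero_iff [IsAlgClosed K] [IsFF1 K F] (v : Place K F) {f : F} (hf0 : f ≠ 0)
    (hf : 0 ≤ v.ord f) : val v f ≠ 0 ↔ v.ord f = 0 := by
  rw [ne_eq, val_eq_zero_iff v hf]
  constructor
  · intro h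
    push Not at h
    exact le_antisymm h.2 hf
  · intro h
    push Not
    exact ⟨hf0, h.le⟩

theorem val_inv [IsAlgClosed K] [IsFF1 K F] (v : Place K F) {f : F} (hf : v.ord f = 0) :
    val v f⁻¹ = (val v f)⁻¹ := by
  rcases eq_or_ne f 0 with rfl | hf0
  · simp
  have h1 : 0 ≤ v.ord f⁻¹ := by rw [v.ord_inv, hf]; simp
  have h2 := val_mul v hf.ge h1
  rw [mul_inv_cancel₀ hf0, val_one] at h2
  exact eq_inv_of_mul_eq_one_right h2.symm

theorem val_div [IsAlgClosed K] [IsFF1 K F] (v : Place K F) {f g : F} (hf : 0 ≤ v.ord f)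
    (hg : v.ord g = 0) : val v (f / g) = val v f / val v g := by
  have h1 : 0 ≤ v.ord g⁻¹ := by rw [v.ord_inv, hg]; simp
  rw [div_eq_mul_inv, val_mul v hf h1, val_inv v hg, div_eq_mul_inv]

/-- `val v f = c` iff `f - c` vanishes at `v`. -/
theorem val_eq_iff [IsAlgClosed K] [IsFF1 K F] (v : Place K F) {f : F} (hf : 0 ≤ v.ord f)
    (c : K) : val v f = c ↔ f = algebraMap K F c ∨ 0 < v.ord (f - algebraMap K F c) :=
  ⟨fun h => h ▸ val_spec v hf, val_eq_of v⟩

/-- if `f` has a value (in the sense of the definition of `val`) then it is regular. -/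
theorem ord_nonneg_of_congr (v : Place K F) {f : F} {c : K}
    (h : f = algebraMap K F c ∨ 0 < v.ord (f - algebraMap K F c)) : 0 ≤ v.ord f := by
  rcases h with h | h
  · rw [h]; exact ord_algebraMap_nonneg v c
  · have := ord_add_nonneg v h.le (ord_algebraMap_nonneg v c)
    rwa [sub_add_cancel] at this

theorem val_of_ord_neg (v : Place K F) {f : F} (hf : v.ord f < 0) : val v f = 0 := by
  unfold val
  rw [dif_neg]
  rintro ⟨c, hc⟩
  have := ord_nonneg_of_congr v hc
  omega

/-! ## `evalOP` -/

theorem evalOP_of_nonneg (v : Place K F) {f : F} (hf : 0 ≤ v.ord f) :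
    evalOP v f = ((val v f : K) : OnePoint K) := by
  unfold evalOP
  rw [if_pos hf]

theorem evalOP_of_neg (v : Place K F) {f : F} (hf : v.ord f < 0) :
    evalOP v f = OnePoint.infty := by
  unfold evalOP
  rw [if_neg (not_le.mpr hf)]

theorem evalOP_eq_infty_iff (v : Place K F) (f : F) :
    evalOP v f = OnePoint.infty ↔ v.ord f < 0 := by
  constructor
  · intro h
    by_contra hcon
    rw [evalOP_of_nonneg v (not_lt.mp hcon)] at h
    exact OnePoint.coe_ne_infty _ h
  · exact evalOP_of_neg v

theorem evalOP_eq_coe_iff (v : Place K F) (f : F) (c : K) :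
    evalOP v f = (c : OnePoint K) ↔ 0 ≤ v.ord f ∧ val v f = c := by
  constructor
  · intro h
    rcases lt_or_ge (v.ord f) 0 with hf | hf
    · rw [evalOP_of_neg v hf] at h
      exact absurd h.symm (OnePoint.coe_ne_infty _)
    · rw [evalOP_of_nonneg v hf] at h
      exact ⟨hf, OnePoint.coe_injective h⟩
  · rintro ⟨hf, rfl⟩
    exact evalOP_of_nonneg v hf

@[simp]
theorem evalOP_algebraMap (v : Place K F) (c : K) :
    evalOP v (algebraMap K F c) = (c : OnePoint K) := by
  rw [evalOP_of_nonneg v (ord_algebraMap_nonneg v c), val_algebraMap]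

/-! ## `sumPts` -/

theorem sumPts_apply {n : ℕ} (P : Fin n → Place K F) (v : Place K F) [DecidableEq (Place K F)] :
    sumPts P v = ((Finset.univ.filter fun i => P i = v).card : ℤ) := by
  unfold sumPts
  rw [Finsupp.finsetSum_apply, Finset.card_filter]
  push_cast
  refine Finset.sum_congr rfl fun i _ => ?_
  rw [Finsupp.single_apply]

theorem sumPts_nonneg {n : ℕ} (P : Fin n → Place K F) (v : Place K F) : 0 ≤ sumPts P v := by
  classical
  rw [sumPts_apply]
  positivity

theorem sumPts_apply_of_injective {n : ℕ} {P : Fin n → Place K F} (hP : Function.Injective P)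
    (i : Fin n) : sumPts P (P i) = 1 := by
  classical
  rw [sumPts_apply]
  have : (Finset.univ.filter fun j => P j = P i) = {i} := by
    ext j
    simp [hP.eq_iff]
  rw [this]
  simp

theorem sumPts_apply_of_notMem {n : ℕ} (P : Fin n → Place K F) {v : Place K F}
    (hv : ∀ i, P i ≠ v) : sumPts P v = 0 := by
  classical
  rw [sumPts_apply]
  have : (Finset.univ.filter fun j => P j = v) = ∅ := by
    ext j
    simp [hv j]
  rw [this]
  simp

theorem one_le_sumPts_apply {n : ℕ} (P : Fin n → Place K F) (i : Fin n) :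
    1 ≤ sumPts P (P i) := by
  classical
  rw [sumPts_apply]
  have : 0 < (Finset.univ.filter fun j => P j = P i).card :=
    Finset.card_pos.mpr ⟨i, by simp⟩
  exact_mod_cast this

theorem degree_sumPts [IsAlgClosed K] [IsFF1 K F] {n : ℕ} (P : Fin n → Place K F) :
    Divisor.degree (sumPts P) = n := by
  unfold sumPts
  rw [map_sum]
  simp [Divisor.degree_single, deg_eq_one]

theorem degree_sumPts_sub [IsAlgClosed K] [IsFF1 K F] {n : ℕ} (P Q : Fin n → Place K F) :
    Divisor.degree (sumPts P - sumPts Q) = 0 := by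
  rw [map_sub, degree_sumPts, degree_sumPts, sub_self]

/-! ## `cls` -/

theorem cls_of_degree {D : Divisor K F} (h : Divisor.degree D = 0) :
    cls D = Pic0.mk ⟨D, h⟩ := by
  unfold cls
  rw [dif_pos (Divisor.mem_degZero.mpr h)]

theorem cls_of_degree_ne {D : Divisor K F} (h : Divisor.degree D ≠ 0) : cls D = 0 := by
  unfold cls
  rw [dif_neg (fun h' => h (Divisor.mem_degZero.mp h'))]

@[simp]
theorem cls_zero : cls (0 : Divisor K F) = 0 := by
  rw [cls_of_degree (map_zero _)]
  rfl

theorem cls_add {D D' : Divisor K F} (h : Divisor.degree D = 0) (h' : Divisor.degree D' = 0) :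
    cls (D + D') = cls D + cls D' := by
  have h2 : Divisor.degree (D + D') = 0 := by rw [map_add, h, h', add_zero]
  rw [cls_of_degree h, cls_of_degree h', cls_of_degree h2]
  rfl

theorem cls_neg (D : Divisor K F) : cls (-D) = - cls D := by
  by_cases h : Divisor.degree D = 0
  · have h2 : Divisor.degree (-D) = 0 := by rw [map_neg, h, neg_zero]
    rw [cls_of_degree h, cls_of_degree h2]
    rfl
  · have h2 : Divisor.degree (-D) ≠ 0 := by rw [map_neg]; exact neg_ne_zero.mpr h
    rw [cls_of_degree_ne h, cls_of_degree_ne h2, neg_zero]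

theorem cls_sub {D D' : Divisor K F} (h : Divisor.degree D = 0) (h' : Divisor.degree D' = 0) :
    cls (D - D') = cls D - cls D' := by
  have h2 : Divisor.degree (-D') = 0 := by rw [map_neg, h', neg_zero]
  rw [sub_eq_add_neg, cls_add h h2, cls_neg, sub_eq_add_neg]

theorem cls_eq_zero_iff {D : Divisor K F} (h : Divisor.degree D = 0) :
    cls D = 0 ↔ ∃ f : F, f ≠ 0 ∧ ∀ v : Place K F, D v = v.ord f := by
  rw [cls_of_degree h]
  unfold Pic0.mk
  rw [QuotientAddGroup.eq_zero_iff, AddSubgroup.mem_addSubgroupOf]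
  rfl

theorem cls_eq_iff {D D' : Divisor K F} (h : Divisor.degree D = 0)
    (h' : Divisor.degree D' = 0) :
    cls D = cls D' ↔ ∃ f : F, f ≠ 0 ∧ ∀ v : Place K F, D v - D' v = v.ord f := by
  have h2 : Divisor.degree (D - D') = 0 := by rw [map_sub, h, h', sub_zero]
  rw [← sub_eq_zero, ← cls_sub h h', cls_eq_zero_iff h2]
  rfl

theorem cls_surjective (c : Pic0 K F) : ∃ D : Divisor K F, Divisor.degree D = 0 ∧ cls D = c := by
  obtain ⟨D, rfl⟩ := Pic0.mk_surjective c
  exact ⟨D.1, D.2, cls_of_degree D.2⟩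

theorem cls_nsmul {D : Divisor K F} (h : Divisor.degree D = 0) (n : ℕ) :
    cls (n • D) = n • cls D := by
  induction n with
  | zero => simp
  | succ n ih =>
    have h2 : Divisor.degree (n • D) = 0 := by rw [map_nsmul, h, smul_zero]
    rw [succ_nsmul, cls_add h2 h, ih, succ_nsmul]

theorem cls_zsmul {D : Divisor K F} (h : Divisor.degree D = 0) (n : ℤ) :
    cls (n • D) = n • cls D := by
  obtain ⟨m, rfl | rfl⟩ := n.eq_nat_or_neg
  · simpa using cls_nsmul h m
  · rw [neg_smul, neg_smul, cls_neg]
    simpa using cls_nsmul h m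

theorem cls_sum {ι : Type*} (s : Finset ι) (D : ι → Divisor K F)
    (h : ∀ i ∈ s, Divisor.degree (D i) = 0) : cls (∑ i ∈ s, D i) = ∑ i ∈ s, cls (D i) := by
  classical
  induction s using Finset.induction_on with
  | empty => simp
  | insert a s ha ih =>
    have h2 : Divisor.degree (∑ i ∈ s, D i) = 0 := by
      rw [map_sum]
      exact Finset.sum_eq_zero fun i hi => h i (Finset.mem_insert_of_mem hi)
    rw [Finset.sum_insert ha, Finset.sum_insert ha, cls_add (h a (Finset.mem_insert_self a s)) h2,
      ih fun i hi => h i (Finset.mem_insert_of_mem hi)]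

end Fermat.Agent.S27
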