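import Fermat.Agent.S27.Defs
import Fermat.Agent.GAL.FF.Riemann

/-!
# S27, block [A-R]: Riemann's theorem for `genusFF` (wrapper around `Fermat.Agent.GAL.FF`)
-/

set_option autoImplicit false
set_option linter.unusedSectionVars false
set_option linter.unusedVariables false

namespace Fermat.Agent.S27

open AlgebraicCurve Fermat.Agent.S24.FF

variable {K F : Type*} [Field K] [Field F] [Algebra K F]

section Riemann

variable [IsAlgClosed K] [CharZero K] [IsFF1 K F]

theorem finite_riemannRochSpace (D : Divisor K F) : Module.Finite K (riemannRochSpace D) :=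
  GAL.FF.finite_L D

theorem finite_H1 (D : Divisor K F) : Module.Finite K (H1 D) :=
  GAL.FF.finite_H1 D

/-- Riemann-Roch without duality. -/
theorem ell_sub_hh1 (D : Divisor K F) :
    (ell D : ℤ) - hh1 D = Divisor.degree D + 1 - genusFF K F :=
  GAL.FF.riemann D

theorem hh1_antitone {D D' : Divisor K F} (h : D ≤ D') : hh1 D' ≤ hh1 D :=
  GAL.FF.h1_anti h

theorem exists_hh1_eq_zero : ∃ c : ℤ, ∀ D : Divisor K F, c ≤ Divisor.degree D → hh1 D = 0 := by
  obtain ⟨c, hc⟩ := GAL.FF.exists_degree_bound K F
  refine ⟨c, fun D hD => ?_⟩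
  have := (hc D hD).1
  exact Module.finrank_zero_of_subsingleton

theorem ell_eq_zero_of_degree_neg {D : Divisor K F} (h : Divisor.degree D < 0) : ell D = 0 :=
  GAL.FF.ell_eq_zero_of_degree_neg h

/-- `L(0) = K`. -/
theorem mem_riemannRochSpace_zero_iff (f : F) :
    f ∈ riemannRochSpace (0 : Divisor K F) ↔ f ∈ Set.range (algebraMap K F) := by
  rw [GAL.FF.L_zero]
  rfl

/-- a section of `L(B)` with `deg B` prescribed zeros has exactly this divisor. -/
theorem ord_eq_of_mem_riemannRochSpace {B E : Divisor K F} (hdeg : Divisor.degree E = Divisor.degree B)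
    {s : F} (hs : s ≠ 0) (h : ∀ v : Place K F, E v - B v ≤ v.ord s) (v : Place K F) :
    v.ord s = E v - B v := by
  set G : Divisor K F := GAL.FF.divOf K s - (E - B) with hG
  have hG0 : ∀ w : Place K F, 0 ≤ G w := by
    intro w
    have := h w
    simp only [hG, Finsupp.coe_sub, Pi.sub_apply, GAL.FF.divOf_apply]
    omega
  have hdegG : Divisor.degree G = 0 := by
    rw [hG, map_sub, map_sub, GAL.FF.degree_divOf, hdeg]
    ring
  rw [GAL.FF.degree_eq_sum, Finsupp.sum] at hdegG
  have hz : G v = 0 := by
    by_cases hv : v ∈ G.support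
    · exact (Finset.sum_eq_zero_iff_of_nonneg (fun w _ => hG0 w)).mp hdegG v hv
    · simpa using hv
  simp only [hG, Finsupp.coe_sub, Pi.sub_apply, GAL.FF.divOf_apply] at hz
  omega

theorem infinite_place : Infinite (Place K F) := by
  obtain ⟨t, ht, -⟩ := IsFF1.exists_transcendental (K := K) (F := F)
  have hex : ∀ c : K, ∃ v : Place K F, 0 < v.ord (t - algebraMap K F c) := fun c =>
    GAL.FF.exists_place_ord_pos (transcendental_sub_algebraMap ht c)
  choose w hw using hex
  have : Infinite K := IsAlgClosed.instInfinite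
  refine Infinite.of_injective w ?_
  intro c c' hcc
  have h1 := hw c
  have h2 := hw c'
  rw [← hcc] at h2
  exact eq_of_ord_sub_pos _ h1 h2

end Riemann

end Fermat.Agent.S27
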