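import Fermat.Agent.S27.Defs

/-!
# S27 [A0]: the hypotheses of S27 imply `IsFF1`
-/

set_option autoImplicit false

namespace Fermat.Agent.S27

open AlgebraicCurve Fermat.Agent.S24.FF IntermediateField KaehlerDifferential

theorem isFF1_of_isCurveOver {K F : Type*} [Field K] [Field F] [Algebra K F] [CharZero K]
    [IsCurveOver K F] [Algebra.EssFiniteType K F] : IsFF1 K F := by
  -- pick `t` with `D t ≠ 0`
  have hex : ∃ t : F, KaehlerDifferential.D K F t ≠ 0 := by
    by_contra hcon
    push Not at hcon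
    have h1 : (⊤ : Submodule F Ω[F⁄K]) = ⊥ := by
      rw [← KaehlerDifferential.span_range_derivation, Submodule.span_eq_bot]
      rintro _ ⟨t, rfl⟩
      exact hcon t
    obtain ⟨x, hx⟩ := exists_ne (0 : Ω[F⁄K])
    have h2 : x ∈ (⊤ : Submodule F Ω[F⁄K]) := Submodule.mem_top
    rw [h1] at h2
    exact hx ((Submodule.mem_bot F).mp h2)
  obtain ⟨t, ht⟩ := hex
  have htr : Transcendental K t := by
    intro halg
    have hint : IsIntegral K t := halg.isIntegral
    have h0 : Polynomial.aeval t (minpoly K t) = 0 := minpoly.aeval K t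
    have h1 := (KaehlerDifferential.D K F).map_aeval (minpoly K t) t
    rw [h0, map_zero] at h1
    have hsep : (minpoly K t).Separable := (minpoly.irreducible hint).separable
    have h2 : Polynomial.aeval t (Polynomial.derivative (minpoly K t)) ≠ 0 :=
      hsep.aeval_derivative_ne_zero h0
    rcases smul_eq_zero.mp h1.symm with h3 | h3
    · exact h2 h3
    · exact ht h3
  refine ⟨t, htr, ?_⟩
  -- `D t` spans
  have hspan : ∀ x : Ω[F⁄K], ∃ c : F, c • KaehlerDifferential.D K F t = x :=
    (finrank_eq_one_iff_of_nonzero' _ ht).mp IsCurveOver.finrank_kaehler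
  have hsub : Subsingleton Ω[F⁄K⟮t⟯] := by
    refine ⟨fun a b => ?_⟩
    have hz : ∀ a : Ω[F⁄K⟮t⟯], a = 0 := by
      intro a
      obtain ⟨x, rfl⟩ := KaehlerDifferential.map_surjective K K⟮t⟯ F a
      obtain ⟨c, rfl⟩ := hspan x
      rw [map_smul, KaehlerDifferential.map_D]
      have : (algebraMap F F) t = algebraMap K⟮t⟯ F (AdjoinSimple.gen K t) := by
        simp
      rw [this, Derivation.map_algebraMap, smul_zero]
    rw [hz a, hz b]
  have : Algebra.FormallyUnramified K⟮t⟯ F := ⟨hsub⟩
  have : Algebra.EssFiniteType K⟮t⟯ F := Algebra.EssFiniteType.of_comp K K⟮t⟯ F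
  exact Algebra.FormallyUnramified.finite_of_free K⟮t⟯ F

end Fermat.Agent.S27
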