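import Fermat.Agent.S27.A.Riemann
import Fermat.Agent.S27.A.Api

/-!
# S27, block [A-N]: nonspecial divisors, prescribed orders, interpolation

Everything is deduced from the interface of [A-R] (Riemann's theorem for `genusFF`), no duality.
-/

set_option autoImplicit false

namespace Fermat.Agent.S27

open AlgebraicCurve Fermat.Agent.S24.FF

variable {K F : Type*} [Field K] [Field F] [Algebra K F]

section Riemann

variable [IsAlgClosed K] [CharZero K] [IsFF1 K F]

omit [CharZero K] in
theorem an_degree_single (v : Place K F) (n : ℤ) :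
    Divisor.degree (Finsupp.single v n : Divisor K F) = n := by
  rw [Divisor.degree_single, deg_eq_one, Nat.cast_one, mul_one]

omit [IsAlgClosed K] [CharZero K] [IsFF1 K F] in
theorem an_riemannRochSpace_mono {D D' : Divisor K F} (h : D ≤ D') :
    riemannRochSpace D ≤ riemannRochSpace D' := fun _ hf v =>
  (hf v).trans (WithZero.exp_le_exp.mpr (Finsupp.le_def.mp h v))

omit [IsAlgClosed K] [CharZero K] [IsFF1 K F] in
theorem an_le_add_single (D : Divisor K F) (v : Place K F) : D ≤ D + Finsupp.single v 1 := by
  have : (0 : Divisor K F) ≤ Finsupp.single v 1 := Finsupp.single_nonneg.mpr zero_le_one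
  exact le_add_of_nonneg_right this

theorem an_ell_mono {D D' : Divisor K F} (h : D ≤ D') : ell D ≤ ell D' := by
  have := finite_riemannRochSpace D'
  exact Submodule.finrank_mono (an_riemannRochSpace_mono h)

/-- `l(D) < l(D + v)` as soon as there is a function in `L(D + v)` not in `L(D)`. -/
theorem an_ell_lt_of_mem {D D' : Divisor K F} (h : D ≤ D') {f : F} (hf : f ∈ riemannRochSpace D')
    (hf' : f ∉ riemannRochSpace D) : ell D < ell D' := by
  have := finite_riemannRochSpace D'
  exact Submodule.finrank_lt_finrank_of_lt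
    (lt_of_le_of_ne (an_riemannRochSpace_mono h) fun e => hf' (e ▸ hf))

omit [IsAlgClosed K] [CharZero K] [IsFF1 K F] in
/-- if `l(D) < l(D')` there is a function in `L(D')` not in `L(D)`. -/
theorem an_exists_mem_of_ell_ne {D D' : Divisor K F} (h : D ≤ D') (hne : ell D ≠ ell D') :
    ∃ f, f ∈ riemannRochSpace D' ∧ f ∉ riemannRochSpace D := by
  by_contra hcon
  push Not at hcon
  exact hne (by rw [ell, ell, le_antisymm (an_riemannRochSpace_mono h) hcon])

omit [IsAlgClosed K] [CharZero K] [IsFF1 K F] in
/-- a function in `L(D + v)` not in `L(D)` has order exactly `-(D v + 1)` at `v`. -/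
theorem an_ord_of_mem_of_not_mem {D : Divisor K F} {v : Place K F} {f : F}
    (hf : f ∈ riemannRochSpace (D + Finsupp.single v 1)) (hf' : f ∉ riemannRochSpace D) :
    f ≠ 0 ∧ v.ord f = -(D v + 1) := by
  classical
  rw [mem_riemannRochSpace_iff] at hf hf'
  push Not at hf'
  obtain ⟨u, hu0, hu⟩ := hf'
  have huv : u = v := by
    by_contra hne
    have := (hf u).resolve_left hu0
    rw [Finsupp.add_apply, Finsupp.single_apply, if_neg (Ne.symm hne), add_zero] at this
    omega
  subst huv
  have := (hf u).resolve_left hu0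
  rw [Finsupp.add_apply, Finsupp.single_eq_same] at this
  exact ⟨hu0, by omega⟩

/-- `h¹` in terms of `l`. -/
theorem an_hh1_eq (D : Divisor K F) :
    (hh1 D : ℤ) = ell D - Divisor.degree D - 1 + genusFF K F := by
  have := ell_sub_hh1 D
  omega

theorem an_ell_zero : ell (0 : Divisor K F) = 1 := by
  have h := ell_sub_hh1 (0 : Divisor K F)
  have h2 : hh1 (0 : Divisor K F) = genusFF K F := rfl
  rw [h2, map_zero] at h
  omega

/-- the sum of the places of a finset. -/
noncomputable def anSum (T : Finset (Place K F)) : Divisor K F := ∑ P ∈ T, Finsupp.single P 1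

omit [IsAlgClosed K] [CharZero K] [IsFF1 K F] in
theorem anSum_apply_of_notMem {T : Finset (Place K F)} {v : Place K F} (hv : v ∉ T) :
    anSum T v = 0 := by
  classical
  rw [anSum, Finsupp.finsetSum_apply]
  refine Finset.sum_eq_zero fun P hP => ?_
  rw [Finsupp.single_apply, if_neg]
  rintro rfl
  exact hv hP

omit [IsAlgClosed K] [CharZero K] [IsFF1 K F] in
theorem anSum_apply_of_mem {T : Finset (Place K F)} {v : Place K F} (hv : v ∈ T) :
    anSum T v = 1 := by
  classical
  rw [anSum, Finsupp.finsetSum_apply, Finset.sum_eq_single v]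
  · exact Finsupp.single_eq_same
  · intro P _ hP
    rw [Finsupp.single_apply, if_neg hP]
  · intro h; exact absurd hv h

omit [IsAlgClosed K] [CharZero K] [IsFF1 K F] in
theorem anSum_nonneg (T : Finset (Place K F)) : 0 ≤ anSum T :=
  Finset.sum_nonneg fun _ _ => Finsupp.single_nonneg.mpr zero_le_one

omit [CharZero K] in
theorem degree_anSum (T : Finset (Place K F)) : Divisor.degree (anSum T) = T.card := by
  rw [anSum, map_sum, Finset.sum_congr rfl fun P _ => an_degree_single P 1]
  simp

/-- adding `m` "bad" places to `b` raises `l` by at least `m`. -/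
theorem an_ell_add_anSum (b : Divisor K F) (T : Finset (Place K F))
    (hT : ∀ P ∈ T, ell (b + Finsupp.single P 1) ≠ ell b) :
    ell b + T.card ≤ ell (b + anSum T) := by
  classical
  induction T using Finset.induction_on with
  | empty => simp [anSum]
  | insert P T hP ih =>
    have ih' := ih fun Q hQ => hT Q (Finset.mem_insert_of_mem hQ)
    obtain ⟨f, hf, hf'⟩ := an_exists_mem_of_ell_ne (an_le_add_single b P)
      (hT P (Finset.mem_insert_self P T)).symm
    obtain ⟨hf0, hord⟩ := an_ord_of_mem_of_not_mem hf hf'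
    have hsum : b + anSum (insert P T) = (b + anSum T) + Finsupp.single P 1 := by
      rw [anSum, Finset.sum_insert hP, ← anSum]; abel
    have hlt : ell (b + anSum T) < ell ((b + anSum T) + Finsupp.single P 1) := by
      refine an_ell_lt_of_mem (an_le_add_single _ P) (f := f) ?_ ?_
      · refine an_riemannRochSpace_mono ?_ hf
        have : b ≤ b + anSum T := le_add_of_nonneg_right (anSum_nonneg T)
        exact add_le_add_left this _
      · intro hmem
        rw [mem_riemannRochSpace_iff] at hmem
        have := (hmem P).resolve_left hf0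
        rw [Finsupp.add_apply, anSum_apply_of_notMem hP, hord] at this
        omega
    rw [hsum, Finset.card_insert_of_notMem hP]
    omega

/-- if `h¹(b) > 0` then `l(b + P) = l(b)` for all but finitely many `P`. -/
theorem an_finite_bad (b : Divisor K F) (hb : 0 < hh1 b) :
    {P : Place K F | ell (b + Finsupp.single P 1) ≠ ell b}.Finite := by
  by_contra hinf
  obtain ⟨c, hc⟩ := exists_hh1_eq_zero (K := K) (F := F)
  obtain ⟨T, hTsub, hTcard⟩ :=
    (Set.not_finite.mp hinf : Set.Infinite _).exists_subset_card_eq (c - Divisor.degree b).toNat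
  have h1 := an_ell_add_anSum b T fun P hP => hTsub hP
  have hdeg : Divisor.degree (b + anSum T) = Divisor.degree b + T.card := by
    rw [map_add, degree_anSum]
  have h0 : hh1 (b + anSum T) = 0 := by
    apply hc
    rw [hdeg, hTcard]
    have := Int.self_le_toNat (c - Divisor.degree b)
    omega
  have h2 := an_hh1_eq (b + anSum T)
  have h3 := an_hh1_eq b
  rw [h0, hdeg] at h2
  have h1' : (ell b : ℤ) + T.card ≤ ell (b + anSum T) := by exact_mod_cast h1
  have hb' : (0 : ℤ) < hh1 b := by exact_mod_cast hb
  push_cast at h2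
  omega

omit [IsAlgClosed K] [CharZero K] [IsFF1 K F] in
theorem an_sumPts_cons {n : ℕ} (Q : Place K F) (P : Fin n → Place K F) :
    sumPts (Fin.cons Q P : Fin (n + 1) → Place K F) = sumPts P + Finsupp.single Q 1 := by
  rw [sumPts, sumPts, Fin.sum_univ_succ]
  simp only [Fin.cons_zero, Fin.cons_succ]
  abel

theorem an_exists_nonspecial_aux (S : Finset (Place K F)) (j : ℕ) (hj : j ≤ genusFF K F) :
    ∃ P : Fin j → Place K F, Function.Injective P ∧ (∀ i, P i ∉ S) ∧ ell (sumPts P) = 1 := by
  classical
  induction j with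
  | zero =>
    refine ⟨Fin.elim0, fun i => i.elim0, fun i => i.elim0, ?_⟩
    have : sumPts (Fin.elim0 : Fin 0 → Place K F) = 0 := by simp [sumPts]
    rw [this, an_ell_zero]
  | succ j ih =>
    obtain ⟨P, hinj, hS, hell⟩ := ih (by omega)
    have hh : 0 < hh1 (sumPts P) := by
      have h := an_hh1_eq (sumPts P)
      rw [hell, degree_sumPts] at h
      have : (0 : ℤ) < hh1 (sumPts P) := by
        rw [h]; push_cast; omega
      exact_mod_cast this
    have hfin := an_finite_bad (sumPts P) hh
    have hfin2 : ({P' : Place K F | ell (sumPts P + Finsupp.single P' 1) ≠ ell (sumPts P)} ∪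
        (S : Set (Place K F)) ∪ Set.range P).Finite :=
      (hfin.union S.finite_toSet).union (Set.finite_range P)
    have := infinite_place (K := K) (F := F)
    obtain ⟨Q, hQ⟩ := hfin2.exists_notMem
    simp only [Set.mem_union, Set.mem_ofPred_eq, Finset.mem_coe, not_or, not_not] at hQ
    obtain ⟨⟨hQ1, hQ2⟩, hQ3⟩ := hQ
    refine ⟨Fin.cons Q P, Fin.cons_injective_iff.mpr ⟨hQ3, hinj⟩, ?_, ?_⟩
    · intro i
      refine Fin.cases ?_ (fun i => ?_) i
      · simpa using hQ2
      · simpa using hS i
    · rw [an_sumPts_cons, hQ1, hell]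

/-- [A8] nonspecial reduced divisors of degree `g` avoiding a finite set. -/
theorem exists_nonspecial (S : Finset (Place K F)) :
    ∃ P : Fin (genusFF K F) → Place K F, Function.Injective P ∧ (∀ i, P i ∉ S) ∧
      ell (sumPts P) = 1 :=
  an_exists_nonspecial_aux S _ le_rfl

/-- `l` drops when a place is removed from a divisor of large degree. -/
theorem an_ell_sub_single_ne {c : ℤ} (hc : ∀ D : Divisor K F, c ≤ Divisor.degree D → hh1 D = 0)
    (D : Divisor K F) (hD : c + 1 ≤ Divisor.degree D) (v : Place K F) :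
    ell (D - Finsupp.single v 1) ≠ ell D := by
  have hdeg : Divisor.degree (D - Finsupp.single v 1) = Divisor.degree D - 1 := by
    rw [map_sub, an_degree_single]
  have h1 := an_hh1_eq D
  have h2 := an_hh1_eq (D - Finsupp.single v 1)
  rw [hc D (by omega)] at h1
  rw [hc _ (by omega), hdeg] at h2
  intro h
  rw [h] at h2
  push_cast at h1 h2
  omega

/-- a function of `L(D)` with exact order `-D v` at all places `v` of a finite set. -/
theorem an_exists_ord_eq_neg {c : ℤ} (hc : ∀ D : Divisor K F, c ≤ Divisor.degree D → hh1 D = 0)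
    (D : Divisor K F) (hD : c + 1 ≤ Divisor.degree D) (S : Finset (Place K F)) (hS : S.Nonempty) :
    ∃ f ∈ riemannRochSpace D, f ≠ 0 ∧ ∀ v ∈ S, v.ord f = - D v := by
  classical
  have hle : ∀ v : Place K F, D - Finsupp.single v 1 ≤ D := fun v =>
    sub_le_self _ (Finsupp.single_nonneg.mpr zero_le_one)
  have key : ∃ f ∈ riemannRochSpace D, ∀ v ∈ S, f ∉ riemannRochSpace (D - Finsupp.single v 1) := by
    by_contra hcon
    push Not at hcon
    have hcov : ⋃ v : S, ((Submodule.comap (riemannRochSpace D).subtype
        (riemannRochSpace (D - Finsupp.single (v : Place K F) 1)) :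
          Subspace K (riemannRochSpace D)) : Set (riemannRochSpace D)) = Set.univ := by
      rw [Set.eq_univ_iff_forall]
      rintro ⟨f, hf⟩
      obtain ⟨v, hv, hfv⟩ := hcon f hf
      exact Set.mem_iUnion.mpr ⟨⟨v, hv⟩, hfv⟩
    obtain ⟨v, hv⟩ := Subspace.exists_eq_top_of_iUnion_eq_univ hcov
    rw [Submodule.comap_subtype_eq_top] at hv
    exact an_ell_sub_single_ne hc D hD v (by rw [ell, ell, le_antisymm
      (an_riemannRochSpace_mono (hle v)) hv])
  obtain ⟨f, hf, hfS⟩ := key
  have hv : ∀ v ∈ S, f ≠ 0 ∧ v.ord f = - D v := by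
    intro v hv
    have hf2 : f ∈ riemannRochSpace ((D - Finsupp.single v 1) + Finsupp.single v 1) := by
      rwa [sub_add_cancel]
    obtain ⟨h0, h1⟩ := an_ord_of_mem_of_not_mem hf2 (hfS v hv)
    refine ⟨h0, ?_⟩
    rw [h1, Finsupp.sub_apply, Finsupp.single_eq_same]
    ring
  obtain ⟨v0, hv0⟩ := hS
  exact ⟨f, hf, (hv v0 hv0).1, fun v h => (hv v h).2⟩

/-- [A9] prescribed orders on a finite set. -/
theorem exists_ord_eq (S : Finset (Place K F)) (n : Place K F → ℤ) :
    ∃ f : F, f ≠ 0 ∧ ∀ v ∈ S, v.ord f = n v := by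
  classical
  rcases S.eq_empty_or_nonempty with rfl | hS
  · exact ⟨1, one_ne_zero, fun v hv => absurd hv (Finset.notMem_empty v)⟩
  obtain ⟨c, hc⟩ := exists_hh1_eq_zero (K := K) (F := F)
  have := infinite_place (K := K) (F := F)
  obtain ⟨Q, hQ⟩ := S.finite_toSet.exists_notMem
  set E : Divisor K F := - Finsupp.indicator S (fun v _ => n v) with hE
  set D : Divisor K F := Finsupp.single Q (c + 1 - Divisor.degree E) + E with hD
  have hdeg : Divisor.degree D = c + 1 := by
    rw [hD, map_add, an_degree_single]; ring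
  obtain ⟨f, -, hf0, hf⟩ := an_exists_ord_eq_neg hc D hdeg.ge S hS
  refine ⟨f, hf0, fun v hv => ?_⟩
  have hvQ : Q ≠ v := by
    rintro rfl
    exact hQ hv
  rw [hf v hv, hD, Finsupp.add_apply, Finsupp.single_apply, if_neg hvQ, hE, Finsupp.neg_apply,
    Finsupp.indicator_of_mem hv]
  ring

/-- [A10] interpolation with a single pole: `f` regular outside `v`, zero on `S`, `f(w) = 1`. -/
theorem exists_interpolation (v w : Place K F) (S : Finset (Place K F)) (hv : v ∉ S) (hw : w ∉ S)
    (hvw : v ≠ w) :
    ∃ f : F, (∀ u : Place K F, u ≠ v → 0 ≤ u.ord f) ∧ (∀ u ∈ S, val u f = 0) ∧ val w f = 1 := by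
  classical
  obtain ⟨c, hc⟩ := exists_hh1_eq_zero (K := K) (F := F)
  set D : Divisor K F := Finsupp.single v (c + 1 + S.card) - anSum S with hD
  have hdeg : Divisor.degree D = c + 1 := by
    rw [hD, map_sub, an_degree_single, degree_anSum]; ring
  obtain ⟨f, hfD, hf0, hf⟩ := an_exists_ord_eq_neg hc D hdeg.ge {w} (Finset.singleton_nonempty w)
  have hDw : D w = 0 := by
    rw [hD, Finsupp.sub_apply, Finsupp.single_apply, if_neg hvw, anSum_apply_of_notMem hw, sub_zero]
  have hordw : w.ord f = 0 := by rw [hf w (Finset.mem_singleton_self w), hDw, neg_zero]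
  rw [mem_riemannRochSpace_iff] at hfD
  have hord : ∀ u : Place K F, - D u ≤ u.ord f := fun u => (hfD u).resolve_left hf0
  have hcne : val w f ≠ 0 := by
    intro h0
    rcases (val_eq_zero_iff w hordw.ge).mp h0 with h | h
    · exact hf0 h
    · omega
  set a : K := (val w f)⁻¹ with ha
  have ha0 : a ≠ 0 := inv_ne_zero hcne
  have haF : algebraMap K F a ≠ 0 := (map_ne_zero _).mpr ha0
  have hordmul : ∀ u : Place K F, u.ord (algebraMap K F a * f) = u.ord f := by
    intro u
    rw [u.ord_mul haF hf0, ord_algebraMap, zero_add]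
  refine ⟨algebraMap K F a * f, fun u hu => ?_, fun u hu => ?_, ?_⟩
  · rw [hordmul]
    have h1 := hord u
    have h2 : D u ≤ 0 := by
      rw [hD, Finsupp.sub_apply, Finsupp.single_apply, if_neg (Ne.symm hu), zero_sub]
      have := Finsupp.le_def.mp (anSum_nonneg S) u
      simp only [Finsupp.coe_zero, Pi.zero_apply] at this
      omega
    omega
  · have huv : v ≠ u := by
      rintro rfl
      exact hv hu
    have h2 : D u = -1 := by
      rw [hD, Finsupp.sub_apply, Finsupp.single_apply, if_neg huv, anSum_apply_of_mem hu, zero_sub]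
    have h1 := hord u
    apply val_eq_of
    right
    rw [map_zero, sub_zero, hordmul]
    omega
  · rw [val_mul w (by rw [ord_algebraMap]) hordw.ge, val_algebraMap, ha, inv_mul_cancel₀ hcne]

end Riemann

end Fermat.Agent.S27
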